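import Fermat.Statements.S02

set_option autoImplicit false
open FreyPackage

namespace Fermat.Agent.S02

/-- Coprime, `b` even: normalise the sign of `a`. -/
theorem aux_even (a b c : ℤ) (ha : a ≠ 0) (hb : b ≠ 0) (hc : c ≠ 0) (p : ℕ) (pp : p.Prime)
    (hp5 : 5 ≤ p) (H : a ^ p + b ^ p = c ^ p) (hg : gcd a b = 1) (hb2 : (2 : ℤ) ∣ b) :
    Nonempty FreyPackage := by
  have hodd : Odd p := pp.odd_of_ne_two (by omega)
  have hb2' : (b : ZMod 2) = 0 := (ZMod.intCast_zmod_eq_zero_iff_dvd b 2).2 hb2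
  -- `a` is odd
  have ha2 : ¬ (2 : ℤ) ∣ a := by
    intro h
    have h2 : (2 : ℤ) ∣ gcd a b := dvd_gcd h hb2
    rw [hg] at h2
    norm_num at h2
  have hcases : a % 4 = 1 ∨ a % 4 = 3 := by omega
  rcases hcases with h1 | h3
  · refine ⟨⟨-a, -b, -c, neg_ne_zero.2 ha, neg_ne_zero.2 hb, neg_ne_zero.2 hc, p, pp, hp5, ?_, ?_,
      ?_, ?_⟩⟩
    · rw [hodd.neg_pow, hodd.neg_pow, hodd.neg_pow, ← H]; ring
    · rw [gcd_neg, neg_gcd]; exact hg
    · have : ((-a : ℤ) : ZMod 4) = ((3 : ℤ) : ZMod 4) := by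
        rw [ZMod.intCast_eq_intCast_iff_dvd_sub]
        push_cast
        omega
      simpa using this
    · push_cast
      rw [hb2', neg_zero]
  · refine ⟨⟨a, b, c, ha, hb, hc, p, pp, hp5, H, hg, ?_, hb2'⟩⟩
    have : ((a : ℤ) : ZMod 4) = ((3 : ℤ) : ZMod 4) := by
      rw [ZMod.intCast_eq_intCast_iff_dvd_sub]
      push_cast
      omega
    simpa using this

/-- Coprime case. -/
theorem aux_coprime (a b c : ℤ) (ha : a ≠ 0) (hb : b ≠ 0) (hc : c ≠ 0) (p : ℕ) (pp : p.Prime)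
    (hp5 : 5 ≤ p) (H : a ^ p + b ^ p = c ^ p) (hg : gcd a b = 1) :
    Nonempty FreyPackage := by
  have hodd : Odd p := pp.odd_of_ne_two (by omega)
  have hp0 : 0 < p := by omega
  by_cases hb2 : (2 : ℤ) ∣ b
  · exact aux_even a b c ha hb hc p pp hp5 H hg hb2
  by_cases ha2 : (2 : ℤ) ∣ a
  · exact aux_even b a c hb ha hc p pp hp5 (by rw [add_comm]; exact H)
      (by rw [gcd_comm]; exact hg) ha2
  -- both odd: `c` is even
  have hc2 : (2 : ℤ) ∣ c := by
    have ha' : Odd a := by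
      rw [← Int.not_even_iff_odd, even_iff_two_dvd]; exact ha2
    have hb' : Odd b := by
      rw [← Int.not_even_iff_odd, even_iff_two_dvd]; exact hb2
    have h1 : Even (c ^ p) := by
      rw [← H]; exact (ha'.pow).add_odd (hb'.pow)
    have h2 : Even c := (Int.even_pow.1 h1).1
    exact even_iff_two_dvd.1 h2
  refine aux_even a (-c) (-b) ha (neg_ne_zero.2 hc) (neg_ne_zero.2 hb) p pp hp5 ?_ ?_
    ((dvd_neg).2 hc2)
  · rw [hodd.neg_pow, hodd.neg_pow, ← H]; ring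
  · rw [gcd_neg, ← gcdab_eq_gcdac hp0 H]; exact hg

theorem result (a b c : ℤ) (ha : a ≠ 0) (hb : b ≠ 0) (hc : c ≠ 0) (p : ℕ) (pp : p.Prime) (hp5 : 5 ≤ p) (H : a ^ p + b ^ p = c ^ p) : Nonempty FreyPackage := by
  have hp0 : p ≠ 0 := by omega
  have hgpos : 0 < Int.gcd a b := Int.gcd_pos_of_ne_zero_left b ha
  obtain ⟨a', b', hg', ha', hb'⟩ := Int.exists_gcd_one hgpos
  set d : ℤ := (Int.gcd a b : ℤ) with hd
  have hd0 : d ≠ 0 := by
    rw [hd]; exact_mod_cast hgpos.ne'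
  have hdc : d ∣ c := by
    rw [← Int.pow_dvd_pow_iff hp0, ← H]
    apply dvd_add <;> rw [Int.pow_dvd_pow_iff hp0]
    · exact Dvd.intro_left a' ha'.symm
    · exact Dvd.intro_left b' hb'.symm
  obtain ⟨c', hc'⟩ := hdc
  have ha0' : a' ≠ 0 := by
    rintro rfl; apply ha; rw [ha']; ring
  have hb0' : b' ≠ 0 := by
    rintro rfl; apply hb; rw [hb']; ring
  have hc0' : c' ≠ 0 := by
    rintro rfl; apply hc; rw [hc']; ring
  have H' : a' ^ p + b' ^ p = c' ^ p := by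
    have hdp : d ^ p ≠ 0 := pow_ne_zero p hd0
    apply mul_left_cancel₀ hdp
    have e1 : a ^ p = d ^ p * a' ^ p := by
      conv_lhs => rw [ha']
      rw [mul_pow, mul_comm]
    have e2 : b ^ p = d ^ p * b' ^ p := by
      conv_lhs => rw [hb']
      rw [mul_pow, mul_comm]
    have e3 : c ^ p = d ^ p * c' ^ p := by
      conv_lhs => rw [hc']
      rw [mul_pow]
    rw [mul_add, ← e1, ← e2, ← e3, H]
  refine aux_coprime a' b' c' ha0' hb0' hc0' p pp hp5 H' ?_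
  change ((Int.gcd a' b' : ℕ) : ℤ) = 1
  rw [hg']; rfl

end Fermat.Agent.S02
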