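import Fermat.Statements.S07
import Fermat.Prelude.Thm_ModularForm_sturm_bound_Gamma0

set_option autoImplicit false
open ModularForm
open WeierstrassCurve WeierstrassCurve.Affine WeierstrassCurve.Affine.Point
open CuspForm ModularFormClass UpperHalfPlane

namespace Fermat.Agent.S07

open scoped MatrixGroups

/-- The index of `Γ₀(2)` in `SL(2, ℤ)` is at most `4` (it is `3`, but we do not need this). -/
theorem index_Gamma0_two_le : (CongruenceSubgroup.Gamma0 2).index ≤ 4 := by
  classical
  let φ : SL(2, ℤ) → ZMod 2 × ZMod 2 := fun g => ((g 0 0 : ZMod 2), (g 1 0 : ZMod 2))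
  have key : ∀ g h : SL(2, ℤ), φ g = φ h → g⁻¹ * h ∈ CongruenceSubgroup.Gamma0 2 := by
    intro g h hgh
    have h0 : ((g 0 0 : ℤ) : ZMod 2) = (h 0 0 : ZMod 2) := congrArg Prod.fst hgh
    have h1 : ((g 1 0 : ℤ) : ZMod 2) = (h 1 0 : ZMod 2) := congrArg Prod.snd hgh
    rw [CongruenceSubgroup.Gamma0_mem]
    have e : (g⁻¹ * h) 1 0 = - g 1 0 * h 0 0 + g 0 0 * h 1 0 := by
      rw [Matrix.SpecialLinearGroup.coe_mul, Matrix.SpecialLinearGroup.SL2_inv_expl,
        Matrix.mul_apply]
      simp [Fin.sum_univ_two]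
    rw [e]
    push_cast
    rw [h0, h1]
    ring
  let ψ : SL(2, ℤ) ⧸ CongruenceSubgroup.Gamma0 2 → ZMod 2 × ZMod 2 := fun q => φ q.out
  have hψ : Function.Injective ψ := by
    intro q₁ q₂ h
    have := key _ _ h
    rw [← QuotientGroup.eq] at this
    simpa using this
  have := Nat.card_le_card_of_injective ψ hψ
  rw [Subgroup.index_eq_card]
  refine this.trans ?_
  simp

theorem result (f : CuspForm (CongruenceSubgroup.Gamma0 2) 2) : f = 0 := by
  have h1 : (1 : ℝ) ∈ (CongruenceSubgroup.Gamma0 2 : Subgroup (GL (Fin 2) ℝ)).strictPeriods := by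
    simp [CongruenceSubgroup.strictPeriods_Gamma0]
  have hz : CuspForm.toModularFormₗ f = 0 := by
    apply ModularForm.sturm_bound_Gamma0 2
    intro n hn
    have hidx := index_Gamma0_two_le
    have hn0 : n = 0 := by
      have : ((2 : ℤ) * ((CongruenceSubgroup.Gamma0 2).index : ℤ)).toNat / 12 = 0 := by
        omega
      omega
    subst hn0
    exact CuspFormClass.qExpansion_coeff_zero f one_pos h1
  exact CuspForm.toModularFormₗ_injective (by rw [hz, _root_.map_zero])

end Fermat.Agent.S07
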