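import Fermat.Statements.S10
import Fermat.Agent.Kummer.CaseI
import Fermat.Agent.Kummer.CaseII
import Fermat.Agent.Kummer.Lemma5
import Fermat.Agent.Kummer.Lemma7
import Fermat.Agent.Kummer.Lemma13
import Fermat.Agent.Kummer.PID7
import Fermat.Agent.Kummer.PID13

set_option autoImplicit false
open WeierstrassCurve WeierstrassCurve.Affine WeierstrassCurve.Affine.Point
open CuspForm ModularFormClass UpperHalfPlane
open FreyPackage

namespace Fermat.Agent.S10

theorem result (P : FreyPackage) (hp : P.p = 5 ∨ P.p = 7 ∨ P.p = 13) : ¬ HasGaloisStableCofixedLine (K := AlgebraicClosure ℚ) ℚ P.freyCurve P.p := by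
  exfalso
  have hab : IsCoprime P.a P.b :=
    (gcd_isUnit_iff P.a P.b).mp (by rw [P.hgcdab]; exact isUnit_one)
  have hF := P.hFLT
  rcases hp with hp | hp | hp
  · rw [hp] at hF
    have : Fact (Nat.Prime 5) := ⟨by norm_num⟩
    have : IsCyclotomicExtension {5} ℚ (CyclotomicField 5 ℚ) :=
      CyclotomicField.isCyclotomicExtension 5 ℚ
    exact Fermat.Agent.Kummer.flt_coprime_of_data 5 (CyclotomicField 5 ℚ) (by norm_num)
      Fermat.Agent.Kummer.caseI_five (IsCyclotomicExtension.Rat.five_pid _)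
      (Fermat.Agent.Kummer.kummerLemma_five _) P.a P.b P.c hab P.ha0 P.hb0 P.hc0 hF
  · rw [hp] at hF
    have : Fact (Nat.Prime 7) := ⟨by norm_num⟩
    have : IsCyclotomicExtension {7} ℚ (CyclotomicField 7 ℚ) :=
      CyclotomicField.isCyclotomicExtension 7 ℚ
    exact Fermat.Agent.Kummer.flt_coprime_of_data 7 (CyclotomicField 7 ℚ) (by norm_num)
      Fermat.Agent.Kummer.caseI_seven (Fermat.Agent.Kummer.pid_seven _)
      (Fermat.Agent.Kummer.kummerLemma_seven _) P.a P.b P.c hab P.ha0 P.hb0 P.hc0 hF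
  · rw [hp] at hF
    have : Fact (Nat.Prime 13) := ⟨by norm_num⟩
    have : IsCyclotomicExtension {13} ℚ (CyclotomicField 13 ℚ) :=
      CyclotomicField.isCyclotomicExtension 13 ℚ
    exact Fermat.Agent.Kummer.flt_coprime_of_data 13 (CyclotomicField 13 ℚ) (by norm_num)
      Fermat.Agent.Kummer.caseI_thirteen (Fermat.Agent.Kummer.pid_thirteen _)
      (Fermat.Agent.Kummer.kummerLemma_thirteen _) P.a P.b P.c hab P.ha0 P.hb0 P.hc0 hF

end Fermat.Agent.S10
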