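import Fermat.Statements.S11
import Fermat.Agent.Kummer.CaseI
import Fermat.Agent.Kummer.CaseII
import Fermat.Agent.Kummer.Lemma11
import Fermat.Agent.Kummer.PID11

set_option autoImplicit false
open WeierstrassCurve WeierstrassCurve.Affine WeierstrassCurve.Affine.Point
open CuspForm ModularFormClass UpperHalfPlane
open FreyPackage

namespace Fermat.Agent.S11

theorem result (P : FreyPackage) (hp : P.p = 11) : ¬ HasGaloisStableCofixedLine (K := AlgebraicClosure ℚ) ℚ P.freyCurve P.p := by
  exfalso
  have hab : IsCoprime P.a P.b :=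
    (gcd_isUnit_iff P.a P.b).mp (by rw [P.hgcdab]; exact isUnit_one)
  have hF := P.hFLT
  rw [hp] at hF
  have : Fact (Nat.Prime 11) := ⟨by norm_num⟩
  have : IsCyclotomicExtension {11} ℚ (CyclotomicField 11 ℚ) :=
      CyclotomicField.isCyclotomicExtension 11 ℚ
  exact Fermat.Agent.Kummer.flt_coprime_of_data 11 (CyclotomicField 11 ℚ) (by norm_num)
    Fermat.Agent.Kummer.caseI_eleven (Fermat.Agent.Kummer.pid_eleven _)
    (Fermat.Agent.Kummer.kummerLemma_eleven _) P.a P.b P.c hab P.ha0 P.hb0 P.hc0 hF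

end Fermat.Agent.S11
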