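import Fermat.Statements.S20
import Fermat.Agent.S20.Concl4
import Fermat.Agent.X0.Cosets
import Fermat.Agent.X0.Cusps

set_option autoImplicit false
open CuspForm

namespace Fermat.Agent.S20

theorem result (N : ℕ) [NeZero N] :
    (Module.finrank ℂ (CuspForm (CongruenceSubgroup.Gamma0 N) 2) : ℚ) = ModularCurve.genusFormula N := by
  rw [finrank_formula N, ModularCurve.genusFormula, ← Nat.card_eq_fintype_card]
  have h1 : Nat.card (Q N) = ModularCurve.dedekindPsi N := X0.card_cos N
  have h2 : Nat.card {q : Q N // ModularGroup.S • q = q} = ModularCurve.nuTwo N :=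
    X0.card_fixed_S N
  have h3 : Nat.card {q : Q N // Um • q = q} = ModularCurve.nuThree N := X0.card_fixed_U N
  have h4 : nCusps N = ModularCurve.cuspCount N := X0.card_orbits_T N
  rw [h1, h2, h3, h4]

end Fermat.Agent.S20
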