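import Fermat.Statements.S16
import Fermat.Agent.S16.Alg
import Fermat.Agent.S16.Dual
import Fermat.Agent.S16.Arith
import Fermat.Agent.S16.Shim
import Fermat.Agent.S16.Lift

set_option autoImplicit false
open ModularCurve CuspForm
open ModularCurve

namespace Fermat.Agent.S16

theorem result
    (p : ℕ) [Fact p.Prime] :
    Nat.card (↥(heckeLatticeAlgebra p ∅) ⧸
        Ideal.map ((latticeRestrictHom p ∅).toRingHom.comp (heckeEvalForms p 2))
          (eisensteinIdeal p)) =
      eisensteinNumerator p := by
  have hp : p.Prime := Fact.out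
  have _ : NeZero (p - 1) := ⟨by have := hp.two_le; omega⟩
  refine index_of p
    (dvd_chi_of_lift p (exists_parabolic_lift p (p - 1) (shimPsi p) (shimPsi_kill p)))
    fun m hm => ?_
  obtain ⟨f, a, ha, hcong⟩ := exists_congruent_form p m hm
  exact dvd_of_congruent p m f a ha hcong

end Fermat.Agent.S16
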