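-- Statement S22: the Hecke algebra is a finite `ℤ`-module.
-- Proof: Eichler integrals / period polynomials give a finitely generated, Hecke stable,
-- separating lattice of linear functionals on the space of cusp forms.
import Fermat.Statements.S22
import Fermat.Agent.S22.Assembly
import Fermat.Agent.S22.Cusps
import Fermat.Agent.S22.Small

set_option autoImplicit false
open CuspForm

namespace Fermat.Agent.S22

theorem result (N : ℕ) [NeZero N] (k : ℤ) (S : Set ℕ) :
    Module.Finite ℤ (CuspForm.heckeAlgebra N k S) := by
  rcases le_or_gt k 1 with hk | hk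
  · have h1 := subsingleton_of_le_one N k hk
    have h2 : Subsingleton (Module.End ℂ (CuspForm (CongruenceSubgroup.Gamma0 N) k)) :=
      ⟨fun a b => LinearMap.ext fun x => Subsingleton.elim _ _⟩
    have h3 : Subsingleton (CuspForm.heckeAlgebra N k S) :=
      ⟨fun a b => Subtype.ext (Subsingleton.elim _ _)⟩
    infer_instance
  · obtain ⟨w, rfl⟩ : ∃ w : ℕ, k = (w : ℤ) + 2 := ⟨(k - 2).toNat, by omega⟩
    exact finite_of_sep N w S fun f h => eq_zero_of_rP_eq_zero f h

end Fermat.Agent.S22
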