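import Fermat.Statements.S28
import Fermat.Agent.S28.Key
import Fermat.Agent.S28.ChartsAux
import Fermat.Agent.S28.ModPolyOf
import Fermat.Agent.S28.HData
import Fermat.Agent.S28.SymInt
import Fermat.Agent.S28.Closed
import Fermat.Agent.S28.Tensor
import Fermat.Agent.S28.Scheme

set_option autoImplicit false
open AlgebraicGeometry CategoryTheory CategoryTheory.Limits ModularCurve ModularCurve.IgusaScheme
noncomputable section
set_option autoImplicit false
open ModularCurve ModularCurve.IgusaScheme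

namespace Fermat.Agent.S28

lemma final_keyDiv (N ℓ : ℕ) [NeZero N] [Fact ℓ.Prime] (hℓN : ¬ ℓ ∣ N) : KeyDiv N ℓ := by
  intro x y hy hdiv
  obtain ⟨b, P, hb, h⟩ := key_div N ℓ hℓN x y hy hdiv
  exact ⟨b, P, hb, by rw [h, evF_apply]⟩

lemma final_modPoly (N : ℕ) [NeZero N] :
    ∃ Φ : Polynomial (Polynomial ℤ), Φ.Monic ∧ ev2 ℤ N Φ = 0 := by
  obtain ⟨Φ, hΦ, h⟩ := modPoly_of N (exists_x N) (sym_S1 N)
  exact ⟨Φ, hΦ, by rw [ev2_apply, h]⟩

set_option maxHeartbeats 4000000 in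
set_option synthInstance.maxHeartbeats 400000 in
theorem result
    (N : ℕ) [NeZero N] (ℓ : ℕ) [Fact ℓ.Prime] (hℓN : ¬ ℓ ∣ N)
    (K : Type) [Field K] [CharP K ℓ] [Algebra ↥(GaloisRep.ratLocalizedAt ℓ) K] :
    IsIntegral ↑(pullback (igusaTo N ℓ)
      (Spec.map (CommRingCat.ofHom (algebraMap ↥(GaloisRep.ratLocalizedAt ℓ) K)))) := by
  obtain ⟨ρF, hρF⟩ := exists_chartExp N ℓ {jFull N} (sFin_subset N)
  obtain ⟨ρI, hρI⟩ := exists_chartExp N ℓ {(jFull N)⁻¹} (sInf_subset N)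
  obtain ⟨ρM, hρM⟩ := exists_chartExp N ℓ {jFull N, (jFull N)⁻¹} subset_rfl
  refine igusa_isIntegral N ℓ K ?_ ?_ ?_
  · exact tensor_isDomain ℓ K _ ρF fun x hx =>
      chartFin_div_aux N ℓ (final_keyDiv N ℓ hℓN) (final_modPoly N) x _ (hρF x) hx
  · exact tensor_isDomain ℓ K _ ρI fun x hx =>
      chartInf_div_aux N ℓ (final_keyDiv N ℓ hℓN) (final_modPoly N) x _ (hρI x) hx
  · exact tensor_isDomain ℓ K _ ρM fun x hx =>
      chartMid_div_aux N ℓ (final_keyDiv N ℓ hℓN) (final_modPoly N) x _ (hρM x) hx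

end Fermat.Agent.S28
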