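-- Statement S49: Deligne–Serre lifting lemma for lattice-realised eigensystems.
import Fermat.Statements.S49
import Fermat.Agent.S49.Formal
import Fermat.Agent.S49.Algebra
import Fermat.Agent.S49.Forms

set_option autoImplicit false
open CuspForm EisensteinWeightOne CongruenceSubgroup ModularFormClass
open FLT FLT.AbstractIntegralStructure

namespace Fermat.Agent.S49

open P2MW.S_CuspForm_intLattice_fg.W3WsD (hΓ qCoeff_add qCoeff_zsmul mem_intLattice_iff)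

/-- The ideal of Hecke operators sending `f0` into `3 L`. -/
def threeIdeal (N : ℕ) [NeZero N] (f0 : CuspForm (Gamma0 N) 2) : Ideal (heckeAlgebra N 2 ∅) where
  carrier := {t | ∃ g ∈ CuspForm.intLattice N 2,
    (t : Module.End ℂ (CuspForm (Gamma0 N) 2)) f0 = (3 : ℤ) • g}
  add_mem' := by
    rintro s t ⟨g, hg, hsg⟩ ⟨g', hg', htg⟩
    refine ⟨g + g', add_mem hg hg', ?_⟩
    rw [Subalgebra.coe_add, LinearMap.add_apply, hsg, htg, smul_add]
  zero_mem' := ⟨0, zero_mem _, by simp⟩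
  smul_mem' := by
    rintro s t ⟨g, hg, htg⟩
    refine ⟨(s : Module.End ℂ (CuspForm (Gamma0 N) 2)) g,
      mem_intLattice_of_mem_heckeAlgebra one_le_two s.2 hg, ?_⟩
    rw [smul_eq_mul, Subalgebra.coe_mul, Module.End.mul_apply, htg, map_zsmul]

theorem result
    {N : ℕ} [NeZero N] (h : CuspForm.HasIntegralBasis N) {a : ℕ → ℤ}
    (heig : FormalHecke.IsEigensystem
      (fun ℓ => if ℓ ∣ N then 0 else ((chiNegThree ℓ : ℤ) : ℤ)) a)
    (hreal : CuspForm.IsLatticeRealized N a) :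
    ∃ (f : CuspForm (Gamma0 N) 2) (_ : f.IsNormalizedEigenform)
      (𝔪' : Ideal (integralClosure ℤ ℂ)), 𝔪'.IsMaximal ∧
      ((3 : ℕ) : integralClosure ℤ ℂ) ∈ 𝔪' ∧
      ∀ (ℓ : ℕ) (_ : ℓ.Prime) (_ : ¬ ℓ ∣ N),
        ∃ c : integralClosure ℤ ℂ, (c : ℂ) = ModularFormClass.qCoeff f ℓ ∧
          c - (a ℓ : integralClosure ℤ ℂ) ∈ 𝔪' := by
  classical
  have hint := hasIntegralStructure_of_basis h
  have hfd := finiteDimensional_of_structure hint
  have hfin : Module.Finite ℤ (heckeAlgebra N 2 ∅) :=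
    Module.Finite.of_injective (latticeRestrictHom N ∅).toLinearMap
      (latticeRestrictHom_bijective N ∅ hint).1
  obtain ⟨f0, -, af, haf, hcong⟩ := hreal
  -- af ≡ a mod 3
  have hd : ∀ n, ∃ d : ℤ, af n = a n + 3 * d := by
    intro n
    obtain ⟨d1, hd1⟩ := hcong n
    obtain ⟨d2, hd2⟩ := bridgeProduct_coeff_sub a n
    exact ⟨d1 + d2, by linarith⟩
  choose d hd using hd
  have hf0L : f0 ∈ CuspForm.intLattice N 2 := by
    rw [mem_intLattice_iff]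
    exact fun n => ⟨af n, (haf n).symm⟩
  set 𝔪0 := threeIdeal N f0 with h𝔪0
  have hne : 𝔪0 ≠ ⊤ := by
    intro htop
    have h1 : (1 : heckeAlgebra N 2 ∅) ∈ 𝔪0 := by rw [htop]; trivial
    obtain ⟨g, hg, h1g⟩ := h1
    rw [mem_intLattice_iff] at hg
    obtain ⟨m, hm⟩ := hg 1
    have h2 : qCoeff ⇑f0 1 = 3 * (m : ℂ) := by
      have : f0 = (3 : ℤ) • g := by simpa using h1g
      rw [this, qCoeff_zsmul, hm]
      norm_num
    rw [← haf 1, hd 1, heig.1] at h2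
    have h3 : (1 : ℤ) + 3 * d 1 = 3 * m := by exact_mod_cast h2
    omega
  have h3mem : ((3 : ℕ) : heckeAlgebra N 2 ∅) ∈ 𝔪0 := by
    refine ⟨f0, hf0L, ?_⟩
    have h3 : (((3 : ℕ) : heckeAlgebra N 2 ∅) : Module.End ℂ (CuspForm (Gamma0 N) 2)) =
        ((3 : ℕ) : Module.End ℂ (CuspForm (Gamma0 N) 2)) :=
      map_natCast (heckeAlgebra N 2 ∅).val 3
    rw [h3, Module.End.natCast_apply, ← natCast_zsmul]
    norm_num
  have hTmem : ∀ (ℓ : ℕ) (hℓ : ℓ.Prime) (hℓN : ¬ ℓ ∣ N),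
      (heckeAlgebra.T hℓ hℓN (Set.notMem_empty _) : heckeAlgebra N 2 ∅) -
        ((a ℓ : ℤ) : heckeAlgebra N 2 ∅) ∈ 𝔪0 := by
    intro ℓ hℓ hℓN
    obtain ⟨κ, hκ⟩ := three_dvd_sub_chi ℓ
    have hκ' : (ℓ : ℂ) - ((chiNegThree ℓ : ℤ) : ℂ) = 3 * (κ : ℂ) := by exact_mod_cast hκ
    have key : ∀ n, ∃ m : ℤ,
        qCoeff ⇑(heckeTLin 2 hℓ hℓN f0 - (a ℓ) • f0) n = 3 * (m : ℂ) := by
      intro n
      rw [qCoeff_sub', qCoeff_heckeTLin, qCoeff_zsmul, ← haf, ← haf]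
      have e1 := heig.2 ℓ hℓ n
      simp only [if_neg hℓN] at e1
      by_cases hdvd : ℓ ∣ n
      · rw [if_pos hdvd, ← haf]
        rw [if_pos hdvd] at e1
        refine ⟨d (ℓ * n) + κ * a (n / ℓ) + ℓ * d (n / ℓ) - a ℓ * d n, ?_⟩
        rw [hd, hd, hd]
        have e1' : ((a (ℓ * n) : ℤ) : ℂ) + ((chiNegThree ℓ : ℤ) : ℂ) * ((a (n / ℓ) : ℤ) : ℂ) =
            ((a ℓ : ℤ) : ℂ) * ((a n : ℤ) : ℂ) := by exact_mod_cast e1
        push_cast
        norm_num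
        linear_combination e1' + ((a (n / ℓ) : ℤ) : ℂ) * hκ'
      · rw [if_neg hdvd]
        rw [if_neg hdvd] at e1
        refine ⟨d (ℓ * n) - a ℓ * d n, ?_⟩
        simp only [← haf, hd]
        have e1' : ((a (ℓ * n) : ℤ) : ℂ) + ((chiNegThree ℓ : ℤ) : ℂ) * 0 =
            ((a ℓ : ℤ) : ℂ) * ((a n : ℤ) : ℂ) := by exact_mod_cast e1
        push_cast
        linear_combination e1'
    obtain ⟨g, hg, hgeq⟩ := exists_three_smul _ key
    refine ⟨g, hg, ?_⟩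
    rw [← hgeq]
    simp [Module.End.intCast_apply]
  obtain ⟨𝔪1, h𝔪1max, h𝔪1le⟩ := Ideal.exists_le_maximal 𝔪0 hne
  obtain ⟨v, lam, 𝔪', hv0, hev, h𝔪'max, h𝔪'⟩ := exists_eigen_lift
    (V := CuspForm (Gamma0 N) 2) (T := heckeAlgebra N 2 ∅)
    (heckeAlgebra N 2 ∅).val.toRingHom Subtype.val_injective 𝔪1
  set av : ℕ → ℂ := fun n => qCoeff ⇑v n with hav
  let e' : ℕ → ℂ := fun ℓ => if ℓ ∣ N then 0 else (ℓ : ℂ)
  let lam' : ℕ → ℂ := fun ℓ => if hℓ : ℓ.Prime then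
      (if hN : ℓ ∣ N then
        ((lam (heckeAlgebra.U hℓ hN (Set.notMem_empty _)) : integralClosure ℤ ℂ) : ℂ)
       else ((lam (heckeAlgebra.T hℓ hN (Set.notMem_empty _)) : integralClosure ℤ ℂ) : ℂ))
      else 0
  have hrec : ∀ ℓ : ℕ, ℓ.Prime → ∀ n : ℕ,
      av (ℓ * n) + e' ℓ * (if ℓ ∣ n then av (n / ℓ) else 0) = lam' ℓ * av n := by
    intro ℓ hℓ n
    by_cases hN : ℓ ∣ N
    · have h1 := hev (heckeAlgebra.U hℓ hN (Set.notMem_empty _))
      have h2 : heckeULin 2 hN v =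
          ((lam (heckeAlgebra.U hℓ hN (Set.notMem_empty _)) : integralClosure ℤ ℂ) : ℂ) • v := h1
      have h3 := congrArg (fun g : CuspForm (Gamma0 N) 2 => qCoeff ⇑g n) h2
      simp only [qCoeff_heckeULin hℓ hN, qCoeff_smul'] at h3
      simp only [e', lam', dif_pos hℓ, dif_pos hN, if_pos hN, zero_mul, add_zero]
      exact h3
    · have h1 := hev (heckeAlgebra.T hℓ hN (Set.notMem_empty _))
      have h2 : heckeTLin 2 hℓ hN v =
          ((lam (heckeAlgebra.T hℓ hN (Set.notMem_empty _)) : integralClosure ℤ ℂ) : ℂ) • v := h1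
      have h3 := congrArg (fun g : CuspForm (Gamma0 N) 2 => qCoeff ⇑g n) h2
      simp only [qCoeff_heckeTLin hℓ hN, qCoeff_smul'] at h3
      simp only [e', lam', dif_pos hℓ, dif_neg hN, if_neg hN]
      rw [← h3]
      norm_num
      rfl
  have hav1 : av 1 ≠ 0 := by
    intro h1
    apply hv0
    apply eq_zero_of_qCoeff
    intro n
    rcases Nat.eq_zero_or_pos n with rfl | hn
    · exact qCoeff_zero_eq_zero v
    · exact eigen_rec_eq_zero hrec h1 n hn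
  set g : CuspForm (Gamma0 N) 2 := (av 1)⁻¹ • v with hg
  have hgc : ∀ n, qCoeff ⇑g n = (av 1)⁻¹ * av n := fun n => qCoeff_smul' _ _ _
  have hlam' : ∀ ℓ, ℓ.Prime → lam' ℓ = qCoeff ⇑g ℓ := by
    intro ℓ hℓ
    have h1 := hrec ℓ hℓ 1
    have hnd : ¬ ℓ ∣ 1 := by
      rw [Nat.dvd_one]
      exact hℓ.one_lt.ne'
    rw [if_neg hnd, mul_zero, add_zero, mul_one] at h1
    rw [hgc, h1]
    field_simp
  have hgeig : FormalHecke.IsEigensystem e' (fun n => qCoeff ⇑g n) := by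
    refine ⟨?_, fun ℓ hℓ n => ?_⟩
    · show qCoeff ⇑g 1 = 1
      rw [hgc]
      exact inv_mul_cancel₀ hav1
    · show qCoeff ⇑g (ℓ * n) + e' ℓ * (if ℓ ∣ n then qCoeff ⇑g (n / ℓ) else 0) =
        qCoeff ⇑g ℓ * qCoeff ⇑g n
      rw [← hlam' ℓ hℓ, hgc, hgc n, hgc (n / ℓ)]
      have h1 := hrec ℓ hℓ n
      split_ifs at h1 ⊢ with hdvd
      · linear_combination (av 1)⁻¹ * h1
      · linear_combination (av 1)⁻¹ * h1
  have hnorm : g.IsNormalizedEigenform :=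
    { qCoeff_one := hgeig.1
      qCoeff_mul_of_coprime := eigensystem_mul_of_coprime hgeig
      qCoeff_prime_pow_of_not_dvd := fun p r hp hpN => by
        have h1 := eigensystem_prime_pow hgeig p r hp
        simp only [e', if_neg hpN] at h1
        exact h1
      qCoeff_prime_pow_of_dvd := fun p r hp hpN => by
        have h1 := eigensystem_prime_pow hgeig p r hp
        simp only [e', if_pos hpN, zero_mul, sub_zero] at h1
        exact h1 }
  refine ⟨g, hnorm, 𝔪', h𝔪'max, ?_, ?_⟩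
  · have h1 : ((3 : ℕ) : heckeAlgebra N 2 ∅) ∈ 𝔪'.comap lam := by
      rw [h𝔪']
      exact h𝔪1le h3mem
    rw [Ideal.mem_comap, map_natCast] at h1
    exact h1
  · intro ℓ hℓ hℓN
    refine ⟨lam (heckeAlgebra.T hℓ hℓN (Set.notMem_empty _)), ?_, ?_⟩
    · rw [← hlam' ℓ hℓ]
      simp only [lam', dif_pos hℓ, dif_neg hℓN]
    · have h1 : (heckeAlgebra.T hℓ hℓN (Set.notMem_empty _) : heckeAlgebra N 2 ∅) -
          ((a ℓ : ℤ) : heckeAlgebra N 2 ∅) ∈ 𝔪'.comap lam := by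
        rw [h𝔪']
        exact h𝔪1le (hTmem ℓ hℓ hℓN)
      rw [Ideal.mem_comap, map_sub, map_intCast] at h1
      exact h1

end Fermat.Agent.S49
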