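import Fermat.Statements.S51
import Fermat.Agent.S51.Galois

set_option autoImplicit false
open WeierstrassCurve WeierstrassCurve.Affine WeierstrassCurve.Affine.Point
open CuspForm ModularFormClass UpperHalfPlane
open WeierstrassCurve

namespace Fermat.Agent.S51

lemma nontrivial_tor3 {W : WeierstrassCurve ℤ} (hΔ : W.Δ ≠ 0) : Nontrivial (Tor W 3) := by
  obtain ⟨P, hP, h3⟩ := exists_three_torsion (Δ_EK_ne_zero W hΔ)
  refine ⟨⟨⟨P, ?_⟩, 0, ?_⟩⟩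
  · rw [Submodule.mem_torsionBy_iff]; exact h3
  · intro h
    exact hP (congrArg Subtype.val h)

lemma nontrivial_tor5 {W : WeierstrassCurve ℤ} (hΔ : W.Δ ≠ 0) : Nontrivial (Tor W 5) := by
  obtain ⟨P, hP, h5⟩ := exists_five_torsion (Δ_EK_ne_zero W hΔ)
  refine ⟨⟨⟨P, ?_⟩, 0, ?_⟩⟩
  · rw [Submodule.mem_torsionBy_iff]; exact h5
  · intro h
    exact hP (congrArg Subtype.val h)

lemma five_dvd_of_eq {a e c d : ℤ} (h : a * c ^ 3 = 5 * e * d) (ha : ¬ (5 : ℤ) ∣ a) :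
    (5 : ℤ) ∣ c := by
  have hp : Prime (5 : ℤ) := Int.prime_iff_natAbs_prime.2 (by norm_num)
  have h5 : (5 : ℤ) ∣ a * c ^ 3 := ⟨e * d, by rw [h]; ring⟩
  rcases hp.dvd_or_dvd h5 with h' | h'
  · exact absurd h' ha
  · exact hp.dvd_of_dvd_pow h'

theorem result (W : WeierstrassCurve ℤ) (hΔ : W.Δ ≠ 0) (hW : W.IsSemistableModel) : W.ModRepIsIrreducible 3 ∨ W.ModRepIsIrreducible 5 := by
  by_contra hcon
  obtain ⟨h3, h5⟩ := not_or.1 hcon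
  have h3' : ∃ N : Submodule (ZMod 3) (Tor W 3), IsGaloisStable ℚ N ∧ N ≠ ⊥ ∧ N ≠ ⊤ := by
    by_contra hno
    apply h3
    refine ⟨nontrivial_tor3 hΔ, fun N hN => ?_⟩
    by_contra hN'
    obtain ⟨hb, ht⟩ := not_or.1 hN'
    exact hno ⟨N, hN, hb, ht⟩
  have h5' : ∃ N : Submodule (ZMod 5) (Tor W 5), IsGaloisStable ℚ N ∧ N ≠ ⊥ ∧ N ≠ ⊤ := by
    by_contra hno
    apply h5
    refine ⟨nontrivial_tor5 hΔ, fun N hN => ?_⟩
    by_contra hN'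
    obtain ⟨hb, ht⟩ := not_or.1 hN'
    exact hno ⟨N, hN, hb, ht⟩
  obtain ⟨N3, hst3, hb3, ht3⟩ := h3'
  obtain ⟨N5, hst5, hb5, ht5⟩ := h5'
  obtain ⟨X₀, hX₀⟩ := line3 N3 hst3 hb3 ht3
  obtain ⟨s, m, hD, hr1, hr2⟩ := line5 N5 hst5 hb5 ht5
  have key := modEq hD hr1 hr2 hX₀
  rw [disc_q] at key
  have hc4 : -48 * Aq W = (W.c₄ : ℚ) := by unfold Aq; ring
  rw [hc4] at key
  have hss : (5 : ℤ) ∣ W.Δ → ¬ (5 : ℤ) ∣ W.c₄ := hW 5 (by norm_num)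
  rcases key with h | h | h | h | h
  · exact hΔ (by exact_mod_cast h)
  · have h' : 2 * W.c₄ ^ 3 = 5 * (-5) * W.Δ := by
      have : (2 : ℤ) * W.c₄ ^ 3 = -25 * W.Δ := by exact_mod_cast h
      linarith
    have hc := five_dvd_of_eq h' (by norm_num)
    obtain ⟨k, hk⟩ := hc
    refine hss ?_ ⟨k, hk⟩
    rw [hk, mul_pow] at h'
    generalize k ^ 3 = t at h'
    omega
  · have h' : 8 * W.c₄ ^ 3 = 5 * (-5 * 241 ^ 3) * W.Δ := by
      have : (8 : ℤ) * W.c₄ ^ 3 = -25 * 241 ^ 3 * W.Δ := by exact_mod_cast h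
      linarith
    have hc := five_dvd_of_eq h' (by norm_num)
    obtain ⟨k, hk⟩ := hc
    refine hss ?_ ⟨k, hk⟩
    rw [hk, mul_pow] at h'
    generalize k ^ 3 = t at h'
    omega
  · have h' : 2 ^ 15 * W.c₄ ^ 3 = 5 * (211 ^ 3) * W.Δ := by
      exact_mod_cast h
    have hc := five_dvd_of_eq h' (by norm_num)
    obtain ⟨k, hk⟩ := hc
    refine hss ?_ ⟨k, hk⟩
    rw [hk, mul_pow] at h'
    generalize k ^ 3 = t at h'
    omega
  · have h' : 32 * W.c₄ ^ 3 = 5 * (-29 ^ 3) * W.Δ := by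
      have : (32 : ℤ) * W.c₄ ^ 3 = -5 * 29 ^ 3 * W.Δ := by exact_mod_cast h
      linarith
    have hc := five_dvd_of_eq h' (by norm_num)
    obtain ⟨k, hk⟩ := hc
    refine hss ?_ ⟨k, hk⟩
    rw [hk, mul_pow] at h'
    generalize k ^ 3 = t at h'
    omega

end Fermat.Agent.S51
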