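-- S53: existence of the universal deformation ring (GaloisRep.nonempty_deformationRingData).
import Fermat.Statements.S53
import Fermat.Agent.S53.Base

set_option autoImplicit false
set_option autoImplicit false
open GaloisRep

namespace Fermat.Agent.S53

theorem result
    (𝒪 : Type) [CommRing 𝒪] [IsDomain 𝒪] [IsDiscreteValuationRing 𝒪]
    [IsAdicComplete (IsLocalRing.maximalIdeal 𝒪) 𝒪] [Finite (IsLocalRing.ResidueField 𝒪)]
    (ρbar : ResidualGaloisRep (IsLocalRing.ResidueField 𝒪))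
    (𝒟 : ∀ ⦃A : Type⦄ [CommRing A] [IsLocalRing A] [Algebra 𝒪 A], GaloisRepAdic A → Prop)
    (habs : ρbar.IsAbsolutelyIrreducible)
    (h𝒟 : GaloisRep.IsDeformationCondition 𝒪 𝒟)
    (hbar : 𝒟 (GaloisRepAdic.ofResidualGaloisRep ρbar))
    (hfin : GaloisRep.TangentFinite 𝒪 ρbar 𝒟) :
    Nonempty (GaloisRep.DeformationRingData 𝒪 ρbar 𝒟) := by
  obtain ⟨b, ⟨nd⟩⟩ := exists_basis_normData 𝒪 ρbar habs
  have h0 := isNDLift_resMat ρbar b nd h𝒟 hbar
  have hT := tangentSet_finite ρbar b nd hfin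
  obtain ⟨I, t, hI1, hgood, hmin, hanti, hpow, hstep, ht, hgen⟩ := exists_tower h𝒟 h0 hT
  obtain ⟨R, _, _, _, _, _, Θ, hcomap, hdense⟩ := exists_complete_ring 𝒪 (BigB 𝒪) I
    (hI1 ▸ mB_isMaximal _) (fun c => hI1 ▸ exists_sub_mem_mB _ c)
    (fun o ho => hI1 ▸ algebraMap_mem_mB _ ho) hanti hpow hstep t ht hgen
  let U : UnivCtx nd 𝒟 R := ⟨I, Θ, hI1, hgood, hmin, hcomap, hdense⟩
  haveI := U.isLocalHom
  exact ⟨{
    R := R
    residue_surjective := U.residue_surjective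
    absIrr := habs
    ρ := toAdic U.ρR U.isCts_ρR
    isOfType := U.type_ρR h𝒟
    residual_isEquiv := residual_isEquiv_of_lifts ρbar b U.isCts_ρR U.lifts_ρR
    universal := fun A _ _ _ _ _ _ hsA ρA hD hres => U.universal h𝒟 hsA ρA hD hres }⟩

end Fermat.Agent.S53
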