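import Fermat.Statements.S57
import Fermat.Agent.S57.FreeOfBasis

set_option autoImplicit false
open Algebra Algebra.PatchingLevel

namespace Fermat.Agent.S57

theorem repr_mem_of_mem_smul_top {P N ι : Type} [CommRing P] [AddCommGroup N] [Module P N]
    (bas : Module.Basis ι P N) (I : Ideal P) {x : N} (hx : x ∈ I • (⊤ : Submodule P N)) (j : ι) :
    bas.repr x j ∈ I := by
  refine Submodule.smul_induction_on (p := fun x => bas.repr x j ∈ I) hx ?_ ?_
  · intro a ha y _
    simpa using I.mul_mem_right _ ha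
  · intro x y hx hy
    simpa using I.add_mem hx hy

theorem phi_local {𝒪 : Type} [CommRing 𝒪] [IsLocalRing 𝒪] {r : ℕ}
    (φ : MvPowerSeries (Fin r) 𝒪 →ₐ[𝒪] MvPowerSeries (Fin r) 𝒪)
    (a : MvPowerSeries (Fin r) 𝒪) (ha : a ∈ IsLocalRing.maximalIdeal (MvPowerSeries (Fin r) 𝒪)) :
    φ a ∈ IsLocalRing.maximalIdeal (MvPowerSeries (Fin r) 𝒪) := by
  rw [IsLocalRing.mem_maximalIdeal, mem_nonunits_iff, MvPowerSeries.isUnit_iff_constantCoeff]
    at ha ⊢
  intro hc
  set c := MvPowerSeries.constantCoeff (φ a) with hcdef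
  have h1 : IsUnit (a - MvPowerSeries.C c) := by
    rw [MvPowerSeries.isUnit_iff_constantCoeff]
    have : MvPowerSeries.constantCoeff (a - MvPowerSeries.C c) =
        MvPowerSeries.constantCoeff a - c := by simp
    rw [this]
    have h2 : MvPowerSeries.constantCoeff a ∈ IsLocalRing.maximalIdeal 𝒪 := ha
    by_contra h3
    have h4 : MvPowerSeries.constantCoeff a - c ∈ IsLocalRing.maximalIdeal 𝒪 := h3
    have h5 : c ∈ IsLocalRing.maximalIdeal 𝒪 := by
      have := (IsLocalRing.maximalIdeal 𝒪).sub_mem h2 h4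
      simpa using this
    exact h5 hc
  have h2 : IsUnit (φ (a - MvPowerSeries.C c)) := h1.map φ
  rw [MvPowerSeries.isUnit_iff_constantCoeff] at h2
  have h3 : φ (MvPowerSeries.C c) = MvPowerSeries.C c := by
    have := φ.commutes c
    simpa [MvPowerSeries.algebraMap_apply] using this
  rw [map_sub, h3, map_sub, MvPowerSeries.constantCoeff_C, ← hcdef, sub_self] at h2
  exact not_isUnit_zero h2

theorem result
    {𝒪 : Type} [CommRing 𝒪] [IsDomain 𝒪] [IsDiscreteValuationRing 𝒪]
    {r : ℕ} {R : Type} [CommRing R] [Algebra 𝒪 R]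
    {M : Type} [AddCommGroup M] [Module R M] [Nontrivial M]
    (L : Algebra.PatchingLevel 𝒪 r R M ⊥) :
    Module.Free R M ∧ Module.annihilator R M = ⊥ ∧
      RingHom.ker L.ψ = Ideal.span (Set.range fun i : Fin r => L.φ (MvPowerSeries.X i)) := by
  classical
  have hfree : Module.Free (MvPowerSeries (Fin r) 𝒪) L.N :=
    free_of_phi_basis (L.φ : MvPowerSeries (Fin r) 𝒪 →+* MvPowerSeries (Fin r) 𝒪)
      (phi_local L.φ) (regGen_mvPowerSeries 𝒪 r) (regGen_mvPowerSeries 𝒪 r) L.N L.b L.b_span
      (by simpa using L.b_rel)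
  set I : Ideal (MvPowerSeries (Fin r) 𝒪) :=
    Ideal.span (Set.range fun i : Fin r => L.φ (MvPowerSeries.X i)) with hI
  have hIker : I ≤ RingHom.ker L.ψ := by
    rw [hI, Ideal.span_le]
    rintro _ ⟨i, rfl⟩
    exact L.ψ_φ_X i
  let bas := Module.Free.chooseBasis (MvPowerSeries (Fin r) 𝒪) L.N
  have hkey : ∀ x : L.N, L.π x = 0 → ∀ j, bas.repr x j ∈ I := fun x hx j =>
    repr_mem_of_mem_smul_top bas I ((L.ker_π x).mp hx) j
  have hNnontriv : Nontrivial L.N := by
    obtain ⟨m, hm⟩ := exists_ne (0 : M)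
    obtain ⟨x, rfl⟩ := L.π_surjective m
    exact ⟨x, 0, fun h => hm (by rw [h, map_zero])⟩
  have hfreeM : Module.Free R M := by
    refine Module.Free.of_basis (Module.Basis.mk (v := fun j => L.π (bas j)) ?_ ?_)
    · rw [linearIndependent_iff']
      intro s g hg i hi
      choose f hf using fun i => L.ψ_surjective (g i)
      have h1 : L.π (∑ i ∈ s, f i • bas i) = 0 := by
        rw [map_sum, ← hg]
        refine Finset.sum_congr rfl fun i _ => ?_
        rw [L.π_smul, hf]
      have h2 := hkey _ h1 i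
      have h3 : bas.repr (∑ i ∈ s, f i • bas i) i = f i := by
        simp [Finsupp.single_apply, hi]
      rw [h3] at h2
      rw [← hf i]
      exact hIker h2
    · intro m _
      obtain ⟨x, rfl⟩ := L.π_surjective m
      rw [← bas.linearCombination_repr x, Finsupp.linearCombination_apply, Finsupp.sum, map_sum]
      refine Submodule.sum_mem _ fun j _ => ?_
      rw [L.π_smul]
      exact Submodule.smul_mem _ _ (Submodule.subset_span ⟨j, rfl⟩)
  refine ⟨hfreeM, ?_, ?_⟩
  · exact Module.annihilator_eq_bot.mpr inferInstance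
  · refine le_antisymm ?_ hIker
    intro f hf
    obtain ⟨j⟩ : Nonempty (Module.Free.ChooseBasisIndex (MvPowerSeries (Fin r) 𝒪) L.N) :=
      bas.index_nonempty
    have h1 : L.π (f • bas j) = 0 := by
      rw [L.π_smul, (RingHom.mem_ker).mp hf, zero_smul]
    have h2 := hkey _ h1 j
    simpa using h2

end Fermat.Agent.S57
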